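import Fermat.Statements.S49
import Fermat.Prelude.Def_CuspForm_HeckeAlgebra
import Fermat.Prelude.Def_CuspForm_IntegralStructure
import Fermat.Prelude.Thm_CuspForm_intLattice_fg
import Fermat.Prelude.Thm_CuspForm_mem_intLattice_of_coe_eq_heckeT
import Fermat.Prelude.Thm_CuspForm_mem_intLattice_of_coe_eq_heckeU
import Fermat.Prelude.Thm_ModularFormClass_qCoeff_heckeT
import Fermat.Prelude.Thm_ModularFormClass_qCoeff_heckeU
import Fermat.Prelude.Thm_CongruenceSubgroup_one_mem_strictPeriods_Gamma0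

set_option autoImplicit false

namespace Fermat.Agent.S49

open CuspForm EisensteinWeightOne CongruenceSubgroup ModularFormClass UpperHalfPlane

noncomputable section

variable {N : ℕ} {k : ℤ}

theorem one_mem_strictPeriods (N : ℕ) :
    (1 : ℝ) ∈ (Subgroup.map (Matrix.SpecialLinearGroup.mapGL ℝ) (Gamma0 N)).strictPeriods :=
  CongruenceSubgroup.one_mem_strictPeriods_Gamma0 N

theorem qCoeff_add' (f g : CuspForm (Gamma0 N) k) (n : ℕ) :
    qCoeff ⇑(f + g) n = qCoeff ⇑f n + qCoeff ⇑g n := by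
  simp only [qCoeff, FunLike.coe_add]
  rw [ModularForm.qExpansion_add one_pos (one_mem_strictPeriods N) f g, map_add]

theorem qCoeff_smul' (c : ℂ) (f : CuspForm (Gamma0 N) k) (n : ℕ) :
    qCoeff ⇑(c • f) n = c * qCoeff ⇑f n := by
  have h1 : ⇑(c • f) = c • ⇑f := by
    ext z
    simp
  simp only [qCoeff, h1]
  rw [ModularForm.qExpansion_smul one_pos (one_mem_strictPeriods N) c f]
  simp

/-- the `n`-th `q`-coefficient as a linear functional. -/
def qCoeffLin (N : ℕ) (k : ℤ) (n : ℕ) : CuspForm (Gamma0 N) k →ₗ[ℂ] ℂ where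
  toFun f := qCoeff ⇑f n
  map_add' f g := qCoeff_add' f g n
  map_smul' c f := by simpa using qCoeff_smul' c f n

@[simp] theorem qCoeffLin_apply (n : ℕ) (f : CuspForm (Gamma0 N) k) :
    qCoeffLin N k n f = qCoeff ⇑f n := rfl

theorem qCoeff_zero_cusp (f : CuspForm (Gamma0 N) k) : qCoeff ⇑f 0 = 0 :=
  CuspFormClass.qExpansion_coeff_zero f one_pos (one_mem_strictPeriods N)

theorem eq_zero_of_qCoeff_eq_zero (f : CuspForm (Gamma0 N) k) (h : ∀ n, qCoeff ⇑f n = 0) :
    f = 0 := by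
  have hΓ := one_mem_strictPeriods N
  have : Fact (IsCusp OnePoint.infty (Subgroup.map (Matrix.SpecialLinearGroup.mapGL ℝ)
      (Gamma0 N))) := ⟨Subgroup.isCusp_of_mem_strictPeriods one_pos hΓ⟩
  have hq : qExpansion 1 ⇑f = 0 := by
    ext n
    simpa [qCoeff] using h n
  have := (UpperHalfPlane.qExpansion_eq_zero_iff one_pos
    (SlashInvariantFormClass.periodic_comp_ofComplex f hΓ) (ModularFormClass.holo f)
    (ModularFormClass.bdd_at_infty f)).mp hq
  exact DFunLike.coe_injective (this.trans (FunLike.coe_zero (F := CuspForm _ k)).symm)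

theorem mem_intLattice_iff' (f : CuspForm (Gamma0 N) k) :
    f ∈ CuspForm.intLattice N k ↔ ∀ n : ℕ, ∃ m : ℤ, qCoeff ⇑f n = (m : ℂ) :=
  P2MW.S_CuspForm_intLattice_fg.W3WsD.mem_intLattice_iff f

theorem qIntegralSet_eq (N : ℕ) :
    CuspForm.qIntegralSet N = ((CuspForm.intLattice N 2 : Submodule ℤ _) : Set _) := by
  ext f
  rw [SetLike.mem_coe, mem_intLattice_iff']
  simp only [CuspForm.qIntegralSet, Set.mem_ofPred_eq, Subring.mem_bot]
  constructor
  · intro h n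
    obtain ⟨m, hm⟩ := h n
    exact ⟨m, hm.symm⟩
  · intro h n
    obtain ⟨m, hm⟩ := h n
    exact ⟨m, hm.symm⟩

theorem span_intLattice_eq_top (h : CuspForm.HasIntegralBasis N) :
    Submodule.span ℂ ((CuspForm.intLattice N 2 : Submodule ℤ _) : Set (CuspForm (Gamma0 N) 2))
      = ⊤ := by
  rw [← qIntegralSet_eq]
  exact h

theorem finiteDimensional_of_hasIntegralBasis [NeZero N] (h : CuspForm.HasIntegralBasis N) :
    FiniteDimensional ℂ (CuspForm (Gamma0 N) 2) := by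
  obtain ⟨S, hS⟩ := CuspForm.intLattice_fg N 2
  have hle : ((CuspForm.intLattice N 2 : Submodule ℤ _) : Set (CuspForm (Gamma0 N) 2)) ⊆
      (Submodule.span ℂ (S : Set (CuspForm (Gamma0 N) 2)) : Set _) := by
    intro x hx
    have hx' : x ∈ Submodule.span ℤ (S : Set (CuspForm (Gamma0 N) 2)) := by rw [hS]; exact hx
    exact Submodule.span_le_restrictScalars ℤ ℂ _ hx'
  have htop : Submodule.span ℂ (S : Set (CuspForm (Gamma0 N) 2)) = ⊤ := by
    rw [eq_top_iff, ← span_intLattice_eq_top h]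
    exact Submodule.span_le.mpr hle
  exact Module.finite_def.mpr ⟨S, htop⟩

/-- the Hecke family: `U_ℓ` for `ℓ ∣ N`, `T_ℓ` otherwise. -/
def heckeFam (N : ℕ) [NeZero N] (ℓ : Nat.Primes) : Module.End ℂ (CuspForm (Gamma0 N) 2) :=
  if h : (ℓ : ℕ) ∣ N then CuspForm.heckeULin 2 h else CuspForm.heckeTLin 2 ℓ.2 h

theorem heckeFam_commute [NeZero N] (ℓ ℓ' : Nat.Primes) :
    Commute (heckeFam N ℓ) (heckeFam N ℓ') := by
  unfold heckeFam
  by_cases h : (ℓ : ℕ) ∣ N <;> by_cases h' : (ℓ' : ℕ) ∣ N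
  · rw [dif_pos h, dif_pos h']
    exact CuspForm.heckeULin_comm 2 h h'
  · rw [dif_pos h, dif_neg h']
    exact (CuspForm.heckeTLin_heckeULin_comm 2 ℓ'.2 h' h).symm
  · rw [dif_neg h, dif_pos h']
    exact CuspForm.heckeTLin_heckeULin_comm 2 ℓ.2 h h'
  · rw [dif_neg h, dif_neg h']
    exact CuspForm.heckeTLin_comm 2 ℓ.2 h ℓ'.2 h'

/-- the level-dependent factor: `0` at primes dividing the level, `1` otherwise. -/
def lvlEps (N : ℕ) (ℓ : ℕ) : ℤ := if ℓ ∣ N then 0 else 1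

theorem qCoeff_heckeFam [NeZero N] (ℓ : Nat.Primes) (f : CuspForm (Gamma0 N) 2) (n : ℕ) :
    qCoeff ⇑(heckeFam N ℓ f) n =
      qCoeff ⇑f (n * ℓ) +
        (lvlEps N ℓ : ℂ) * (if (ℓ : ℕ) ∣ n then ((ℓ : ℕ) : ℂ) * qCoeff ⇑f (n / ℓ) else 0) := by
  unfold heckeFam lvlEps
  by_cases h : (ℓ : ℕ) ∣ N
  · rw [dif_pos h, if_pos h]
    rw [CuspForm.coe_heckeULin_apply,
      ModularFormClass.qCoeff_heckeU f (one_mem_strictPeriods N) ℓ.2.ne_zero n,
      ModularForm.coeffHeckeU_apply]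
    simp
  · rw [dif_neg h, if_neg h]
    rw [CuspForm.coe_heckeTLin_apply,
      ModularFormClass.qCoeff_heckeT f (one_mem_strictPeriods N) ℓ.2.ne_zero n,
      ModularForm.coeffHeckeT_apply]
    simp

theorem heckeFam_mem_intLattice [NeZero N] (ℓ : Nat.Primes) (f : CuspForm (Gamma0 N) 2)
    (hf : f ∈ CuspForm.intLattice N 2) : heckeFam N ℓ f ∈ CuspForm.intLattice N 2 := by
  unfold heckeFam
  by_cases h : (ℓ : ℕ) ∣ N
  · rw [dif_pos h]
    exact CuspForm.mem_intLattice_of_coe_eq_heckeU ℓ.2.ne_zero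
      (CuspForm.coe_heckeULin_apply 2 h f) hf
  · rw [dif_neg h]
    exact CuspForm.mem_intLattice_of_coe_eq_heckeT one_le_two ℓ.2.ne_zero
      (CuspForm.coe_heckeTLin_apply 2 ℓ.2 h f) hf

end

end Fermat.Agent.S49
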