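import Mathlib

set_option autoImplicit false

namespace Fermat.Agent.S49

open Module

section CommonEigenvector

variable {K V ι : Type*} [Field K] [IsAlgClosed K] [AddCommGroup V] [Module K V]
  [FiniteDimensional K V]

/-- A commuting family of endomorphisms stabilising a nonzero subspace `W` has a common
eigenvector inside `W`. -/
theorem exists_common_eigenvector (T : ι → Module.End K V)
    (hcomm : ∀ i j, Commute (T i) (T j)) :
    ∀ (n : ℕ) (W : Submodule K V), finrank K W = n → W ≠ ⊥ →
      (∀ i, ∀ x ∈ W, T i x ∈ W) →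
      ∃ v ∈ W, v ≠ 0 ∧ ∀ i, ∃ μ : K, T i v = μ • v := by
  intro n
  induction n using Nat.strong_induction_on with
  | _ n ih =>
    intro W hWn hW hinv
    by_cases hscal : ∀ i, ∃ μ : K, ∀ x ∈ W, T i x = μ • x
    · obtain ⟨v, hvW, hv0⟩ := (Submodule.ne_bot_iff W).mp hW
      refine ⟨v, hvW, hv0, fun i => ?_⟩
      obtain ⟨μ, hμ⟩ := hscal i
      exact ⟨μ, hμ v hvW⟩
    · push Not at hscal
      obtain ⟨i, hi⟩ := hscal
      have : Nontrivial W := (Submodule.nontrivial_iff_ne_bot).mpr hW
      have hmaps : Set.MapsTo (T i) W W := fun x hx => hinv i x hx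
      obtain ⟨μ, hμ⟩ := Module.End.exists_eigenvalue ((T i).restrict hmaps)
      obtain ⟨w, hw⟩ := hμ.exists_hasEigenvector
      have hw1 : T i (w : V) = μ • (w : V) := by
        have := hw.apply_eq_smul
        exact congrArg (Subtype.val) this
      have hw0 : (w : V) ≠ 0 := fun h => hw.2 (Subtype.ext h)
      set W' : Submodule K V := W ⊓ LinearMap.ker (T i - μ • (1 : Module.End K V)) with hW'
      have hwW' : (w : V) ∈ W' := by
        refine ⟨w.2, ?_⟩
        simp [LinearMap.mem_ker, hw1]
      have hW'ne : W' ≠ ⊥ := fun h => hw0 (by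
        have := hwW'; rw [h] at this; simpa using this)
      obtain ⟨x, hxW, hx⟩ := hi μ
      have hW'lt : W' < W := by
        refine lt_of_le_of_ne inf_le_left fun h => hx ?_
        have hxW' : x ∈ W' := h ▸ hxW
        have := hxW'.2
        simpa [LinearMap.mem_ker, sub_eq_zero] using this
      have hlt : finrank K W' < n := hWn ▸ Submodule.finrank_lt_finrank_of_lt hW'lt
      have hinv' : ∀ j, ∀ y ∈ W', T j y ∈ W' := by
        intro j y hy
        refine ⟨hinv j y hy.1, ?_⟩
        have hy2 : T i y = μ • y := by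
          have := hy.2
          simpa [LinearMap.mem_ker, sub_eq_zero] using this
        have hc : T i (T j y) = T j (T i y) := by
          have := congrArg (fun f : Module.End K V => f y) (hcomm i j).eq
          simpa using this
        simp [LinearMap.mem_ker, hc, hy2]
      obtain ⟨v, hvW', hv0, hv⟩ := ih _ hlt W' rfl hW'ne hinv'
      exact ⟨v, hvW'.1, hv0, hv⟩

omit [IsAlgClosed K] [FiniteDimensional K V] in
/-- An eigenvector lying in a maximal generalised eigenspace has the matching eigenvalue. -/
theorem eigenvalue_eq_of_mem_maxGenEigenspace (T : Module.End K V) (χ μ : K) (v : V)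
    (hv : v ≠ 0) (hmem : v ∈ T.maxGenEigenspace χ) (hT : T v = μ • v) : μ = χ := by
  by_contra hne
  have h1 : v ∈ T.maxGenEigenspace μ := by
    rw [Module.End.mem_maxGenEigenspace]
    exact ⟨1, by simp [hT]⟩
  have hdis := Module.End.disjoint_genEigenspace T hne ⊤ ⊤
  exact hv ((Submodule.disjoint_def.mp hdis) v h1 hmem)

end CommonEigenvector

end Fermat.Agent.S49
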