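import Mathlib

set_option autoImplicit false

namespace Fermat.Agent.S49

open Module Polynomial

section Integrality

variable {V : Type*} [AddCommGroup V] [Module ℂ V]

/-- the `ℤ`-endomorphism of a lattice induced by a `ℂ`-endomorphism stabilising it. -/
def latticeEnd (L : Submodule ℤ V) (T : Module.End ℂ V) (hT : ∀ x ∈ L, T x ∈ L) :
    Module.End ℤ L :=
  LinearMap.restrict (T.restrictScalars ℤ) (fun x hx => hT x hx)

theorem latticeEnd_apply (L : Submodule ℤ V) (T : Module.End ℂ V) (hT : ∀ x ∈ L, T x ∈ L)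
    (x : L) : ((latticeEnd L T hT x : L) : V) = T (x : V) := rfl

/-- evaluating an integer polynomial at an endomorphism stabilising a `ℤ`-lattice commutes with
restriction to the lattice. -/
theorem aeval_restrict_lattice (L : Submodule ℤ V) (T : Module.End ℂ V)
    (hT : ∀ x ∈ L, T x ∈ L) (Q : ℤ[X]) (x : L) :
    (aeval T Q) (x : V) = ((aeval (latticeEnd L T hT) Q x : L) : V) := by
  induction Q using Polynomial.induction_on generalizing x with
  | C a =>
    simp
  | add p q hp hq =>
    simp [hp, hq]
  | monomial n a h =>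
    have e1 : aeval T (C a * X ^ (n + 1)) = aeval T (C a * X ^ n) * T := by
      rw [pow_succ, ← mul_assoc, map_mul, aeval_X]
    have e2 : aeval (latticeEnd L T hT) (C a * X ^ (n + 1)) =
        aeval (latticeEnd L T hT) (C a * X ^ n) * latticeEnd L T hT := by
      rw [pow_succ, ← mul_assoc, map_mul, aeval_X]
    rw [e1, e2, Module.End.mul_apply, Module.End.mul_apply, ← h, latticeEnd_apply]

/-- eigenvalues of an endomorphism stabilising a finitely generated spanning `ℤ`-lattice are
algebraic integers. -/
theorem isIntegral_eigenvalue (L : Submodule ℤ V) (hfg : L.FG)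
    (hspan : Submodule.span ℂ (L : Set V) = ⊤) (T : Module.End ℂ V)
    (hT : ∀ x ∈ L, T x ∈ L) (v : V) (hv : v ≠ 0) (μ : ℂ) (h : T v = μ • v) :
    IsIntegral ℤ μ := by
  have : Module.Finite ℤ L := Module.Finite.iff_fg.mpr hfg
  obtain ⟨P, hPmonic, hP⟩ :=
    (Module.End.isIntegral (R := ℤ) (M := L)).isIntegral (latticeEnd L T hT)
  have hP' : aeval (latticeEnd L T hT) P = 0 := hP
  have hzero : aeval T P = 0 := by
    refine LinearMap.ext_on hspan fun x hx => ?_
    have := aeval_restrict_lattice L T hT P ⟨x, hx⟩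
    rw [hP'] at this
    simpa using this
  have hvec : T.HasEigenvector μ v :=
    ⟨Module.End.mem_eigenspace_iff.mpr h, hv⟩
  have h2 : aeval T (P.map (algebraMap ℤ ℂ)) v = ((P.map (algebraMap ℤ ℂ)).eval μ) • v :=
    Module.End.aeval_apply_of_hasEigenvector hvec
  rw [aeval_map_algebraMap, hzero] at h2
  have h3 : (P.map (algebraMap ℤ ℂ)).eval μ = 0 := by
    by_contra hne
    exact hv ((smul_eq_zero.mp h2.symm).resolve_left hne)
  refine ⟨P, hPmonic, ?_⟩
  rwa [eval_map] at h3

end Integrality

end Fermat.Agent.S49
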