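import Mathlib
import Fermat.Agent.S49.CommonEigen
import Fermat.Agent.S49.Integral

set_option autoImplicit false

namespace Fermat.Agent.S49

open Module

section DS

variable {V : Type*} [AddCommGroup V] [Module ℂ V]

local notation "Rbar" => integralClosure ℤ ℂ

/-- the `p`-multiples of the `ℤ̄`-span of the lattice, as an additive subgroup. -/
def pSpan (L : Submodule ℤ V) (p : ℕ) : AddSubgroup V :=
  AddSubgroup.closure {y | ∃ (c : Rbar) (g : V), g ∈ L ∧ y = ((p : ℂ) * (c : ℂ)) • g}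

theorem pSpan_of_mem (L : Submodule ℤ V) (p : ℕ) {g : V} (hg : g ∈ L) :
    (p : ℂ) • g ∈ pSpan L p :=
  AddSubgroup.subset_closure ⟨1, g, hg, by simp⟩

theorem pSpan_smul (L : Submodule ℤ V) (p : ℕ) (r : Rbar) {z : V} (hz : z ∈ pSpan L p) :
    (r : ℂ) • z ∈ pSpan L p := by
  induction hz using AddSubgroup.closure_induction with
  | mem y hy =>
    obtain ⟨c, g, hg, rfl⟩ := hy
    refine AddSubgroup.subset_closure ⟨r * c, g, hg, ?_⟩
    rw [smul_smul]
    congr 1
    push_cast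
    ring
  | zero => simp
  | add x y _ _ hx hy => rw [smul_add]; exact (pSpan L p).add_mem hx hy
  | neg x _ hx => rw [smul_neg]; exact (pSpan L p).neg_mem hx

theorem pSpan_map (L : Submodule ℤ V) (p : ℕ) (T : Module.End ℂ V) (hT : ∀ x ∈ L, T x ∈ L)
    {z : V} (hz : z ∈ pSpan L p) : T z ∈ pSpan L p := by
  induction hz using AddSubgroup.closure_induction with
  | mem y hy =>
    obtain ⟨c, g, hg, rfl⟩ := hy
    refine AddSubgroup.subset_closure ⟨c, T g, hT g hg, ?_⟩
    rw [map_smul]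
  | zero => simp
  | add x y _ _ hx hy => rw [map_add]; exact (pSpan L p).add_mem hx hy
  | neg x _ hx => rw [map_neg]; exact (pSpan L p).neg_mem hx

theorem pSpan_functional (L : Submodule ℤ V) (p : ℕ) (ψ : V →ₗ[ℂ] ℂ)
    (hψ : ∀ x ∈ L, ∃ m : ℤ, ψ x = m) {z : V} (hz : z ∈ pSpan L p) :
    ∃ r : Rbar, ψ z = (p : ℂ) * (r : ℂ) := by
  induction hz using AddSubgroup.closure_induction with
  | mem y hy =>
    obtain ⟨c, g, hg, rfl⟩ := hy
    obtain ⟨m, hm⟩ := hψ g hg
    refine ⟨c * (m : Rbar), ?_⟩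
    rw [map_smul, hm, smul_eq_mul]
    push_cast
    ring
  | zero => exact ⟨0, by simp⟩
  | add x y _ _ hx hy =>
    obtain ⟨r, hr⟩ := hx
    obtain ⟨s, hs⟩ := hy
    exact ⟨r + s, by rw [map_add, hr, hs]; push_cast; ring⟩
  | neg x _ hx =>
    obtain ⟨r, hr⟩ := hx
    exact ⟨-r, by rw [map_neg, hr]; push_cast; ring⟩

/-- the bookkeeping predicate: `A` stabilises `pSpan` and acts on `f` as the scalar `c`
modulo `pSpan`. -/
def ActsMod (L : Submodule ℤ V) (p : ℕ) (f : V) (A : Module.End ℂ V) (c : Rbar) : Prop :=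
  (∀ z ∈ pSpan L p, A z ∈ pSpan L p) ∧ A f - (c : ℂ) • f ∈ pSpan L p

theorem ActsMod.one (L : Submodule ℤ V) (p : ℕ) (f : V) : ActsMod L p f 1 1 :=
  ⟨fun z hz => hz, by simp⟩

theorem ActsMod.mul {L : Submodule ℤ V} {p : ℕ} {f : V} {A A' : Module.End ℂ V} {c c' : Rbar}
    (h : ActsMod L p f A c) (h' : ActsMod L p f A' c') : ActsMod L p f (A * A') (c * c') := by
  refine ⟨fun z hz => h.1 _ (h'.1 z hz), ?_⟩
  have e : (A * A') f - ((c * c' : Rbar) : ℂ) • f =
      A (A' f - (c' : ℂ) • f) + (c' : ℂ) • (A f - (c : ℂ) • f) := by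
    rw [Module.End.mul_apply, map_sub, map_smul, smul_sub, smul_smul]
    push_cast
    rw [mul_comm (c' : ℂ) (c : ℂ)]
    abel
  rw [e]
  exact (pSpan L p).add_mem (h.1 _ h'.2) (pSpan_smul L p c' h.2)

theorem ActsMod.pow {L : Submodule ℤ V} {p : ℕ} {f : V} {A : Module.End ℂ V} {c : Rbar}
    (h : ActsMod L p f A c) (k : ℕ) : ActsMod L p f (A ^ k) (c ^ k) := by
  induction k with
  | zero => simpa using ActsMod.one L p f
  | succ k ih => rw [pow_succ, pow_succ]; exact ih.mul h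

theorem ActsMod.sub_eigen (L : Submodule ℤ V) (p : ℕ) (f : V) (T : Module.End ℂ V)
    (hT : ∀ x ∈ L, T x ∈ L) (a : ℤ) (y : V) (hy : y ∈ L)
    (hTf : T f - (a : ℂ) • f = (p : ℂ) • y) (r : Rbar) :
    ActsMod L p f (T - (r : ℂ) • (1 : Module.End ℂ V)) (-(r - (a : Rbar))) := by
  refine ⟨fun z hz => ?_, ?_⟩
  · rw [LinearMap.sub_apply, LinearMap.smul_apply, Module.End.one_apply]
    exact (pSpan L p).sub_mem (pSpan_map L p T hT hz) (pSpan_smul L p r hz)
  · have e : (T - (r : ℂ) • (1 : Module.End ℂ V)) f - ((-(r - (a : Rbar)) : Rbar) : ℂ) • f =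
        (p : ℂ) • y := by
      rw [← hTf, LinearMap.sub_apply, LinearMap.smul_apply, Module.End.one_apply]
      push_cast
      rw [neg_smul, sub_smul]
      abel
    rw [e]
    exact pSpan_of_mem L p hy

variable [FiniteDimensional ℂ V]

/-- **Deligne–Serre lifting lemma**, elementary form. -/
theorem deligneSerre {ι : Type*} (T : ι → Module.End ℂ V) (hcomm : ∀ i j, Commute (T i) (T j))
    (L : Submodule ℤ V) (hLfg : L.FG) (hLspan : Submodule.span ℂ (L : Set V) = ⊤)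
    (hLT : ∀ i, ∀ x ∈ L, T i x ∈ L)
    (ψ : V →ₗ[ℂ] ℂ) (hψ : ∀ x ∈ L, ∃ m : ℤ, ψ x = m)
    (p : ℕ) (𝔪 : Ideal Rbar) (h𝔪 : 𝔪.IsPrime) (hp𝔪 : (p : Rbar) ∈ 𝔪)
    (f : V) (m₀ : ℤ) (hψf : ψ f = m₀) (hm₀ : (m₀ : Rbar) ∉ 𝔪)
    (a : ι → ℤ) (ha : ∀ i, ∃ y ∈ L, T i f - (a i : ℂ) • f = (p : ℂ) • y) :
    ∃ (v : V) (lam : ι → Rbar), v ≠ 0 ∧ (∀ i, T i v = (lam i : ℂ) • v) ∧
      ∀ i, lam i - (a i : Rbar) ∈ 𝔪 := by
  classical
  -- simultaneous generalised eigenspace decomposition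
  have hdecomp : ⨆ χ : ι → ℂ, ⨅ i, (T i).maxGenEigenspace (χ i) = ⊤ := by
    refine Module.End.iSup_iInf_maxGenEigenspace_eq_top_of_iSup_maxGenEigenspace_eq_top_of_commute
      T (fun i j _ => hcomm i j) (fun i => Module.End.iSup_maxGenEigenspace_eq_top (T i))
  -- every nonzero simultaneous generalised eigenspace contains a common eigenvector
  have hcommon : ∀ χ : ι → ℂ, (⨅ i, (T i).maxGenEigenspace (χ i)) ≠ ⊥ →
      ∃ v : V, v ≠ 0 ∧ ∀ i, T i v = χ i • v := by
    intro χ hχ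
    have hinv : ∀ i, ∀ x ∈ (⨅ j, (T j).maxGenEigenspace (χ j)), T i x ∈
        (⨅ j, (T j).maxGenEigenspace (χ j)) := by
      intro i x hx
      rw [Submodule.mem_iInf] at hx ⊢
      intro j
      exact Module.End.mapsTo_maxGenEigenspace_of_comm (hcomm j i) (χ j) (hx j)
    obtain ⟨v, hvW, hv0, hv⟩ := exists_common_eigenvector T hcomm _ _ rfl hχ hinv
    refine ⟨v, hv0, fun i => ?_⟩
    obtain ⟨μ, hμ⟩ := hv i
    have hmem : v ∈ (T i).maxGenEigenspace (χ i) := (Submodule.mem_iInf _).mp hvW i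
    rw [hμ, eigenvalue_eq_of_mem_maxGenEigenspace (T i) (χ i) μ v hv0 hmem hμ]
  have hint : ∀ χ : ι → ℂ, (⨅ i, (T i).maxGenEigenspace (χ i)) ≠ ⊥ → ∀ i, IsIntegral ℤ (χ i) := by
    intro χ hχ i
    obtain ⟨v, hv0, hv⟩ := hcommon χ hχ
    exact isIntegral_eigenvalue L hLfg hLspan (T i) (hLT i) v hv0 (χ i) (hv i)
  -- the key claim
  have key : ∃ χ : ι → ℂ, (⨅ i, (T i).maxGenEigenspace (χ i)) ≠ ⊥ ∧
      ∀ i, ∃ r : Rbar, (r : ℂ) = χ i ∧ r - (a i : Rbar) ∈ 𝔪 := by
    by_contra hcon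
    push Not at hcon
    have hmot : ∀ x : V, x ∈ (⨆ χ : ι → ℂ, ⨅ i, (T i).maxGenEigenspace (χ i)) →
        ∃ (A : Module.End ℂ V) (c : Rbar), (∀ i, Commute A (T i)) ∧
          (∀ B : Module.End ℂ V, (∀ i, Commute B (T i)) → Commute A B) ∧ ActsMod L p f A c ∧
          c ∉ 𝔪 ∧ A x = 0 := by
      intro x hx
      refine Submodule.iSup_induction (fun χ : ι → ℂ => ⨅ i, (T i).maxGenEigenspace (χ i))
        (motive := fun x => ∃ (A : Module.End ℂ V) (c : Rbar), (∀ i, Commute A (T i)) ∧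
          (∀ B : Module.End ℂ V, (∀ i, Commute B (T i)) → Commute A B) ∧ ActsMod L p f A c ∧
          c ∉ 𝔪 ∧ A x = 0) hx ?_ ?_ ?_
      · intro χ x hx
        by_cases hx0 : x = 0
        · exact ⟨1, 1, fun i => Commute.one_left _, fun B _ => Commute.one_left _,
            ActsMod.one L p f,
            fun h => h𝔪.ne_top ((Ideal.eq_top_iff_one _).mpr h), by simp [hx0]⟩
        · have hχ : (⨅ i, (T i).maxGenEigenspace (χ i)) ≠ ⊥ := fun h => hx0 (by
            rw [h] at hx; simpa using hx)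
          obtain ⟨i, hi⟩ := hcon χ hχ
          set r : Rbar := ⟨χ i, hint χ hχ i⟩ with hr
          have hri : r - (a i : Rbar) ∉ 𝔪 := hi r rfl
          have hxi : x ∈ (T i).maxGenEigenspace (χ i) := (Submodule.mem_iInf _).mp hx i
          obtain ⟨k, hk⟩ := (Module.End.mem_maxGenEigenspace _ _ _).mp hxi
          obtain ⟨y, hyL, hy⟩ := ha i
          refine ⟨(T i - (r : ℂ) • (1 : Module.End ℂ V)) ^ k, (-(r - (a i : Rbar))) ^ k,
            fun j => ?_, fun B hB => ?_,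
            (ActsMod.sub_eigen L p f (T i) (hLT i) (a i) y hyL hy r).pow k, ?_, hk⟩
          · exact ((hcomm i j).sub_left ((Commute.one_left _).smul_left _)).pow_left k
          · exact (((hB i).symm).sub_left ((Commute.one_left _).smul_left _)).pow_left k
          · intro hmem
            exact hri (neg_mem_iff.mp (h𝔪.mem_of_pow_mem k hmem))
      · exact ⟨1, 1, fun i => Commute.one_left _, fun B _ => Commute.one_left _,
          ActsMod.one L p f,
          fun h => h𝔪.ne_top ((Ideal.eq_top_iff_one _).mpr h), by simp⟩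
      · intro x y hx hy
        obtain ⟨A, c, hAc, hAb, hA, hc, hAx⟩ := hx
        obtain ⟨A', c', hAc', hAb', hA', hc', hAy⟩ := hy
        refine ⟨A * A', c * c', fun i => (hAc i).mul_left (hAc' i),
          fun B hB => (hAb B hB).mul_left (hAb' B hB), hA.mul hA', ?_, ?_⟩
        · intro h
          rcases h𝔪.mem_or_mem h with h | h
          · exact hc h
          · exact hc' h
        · have hAA' : Commute A A' := hAb A' hAc'
          rw [map_add, Module.End.mul_apply, Module.End.mul_apply, hAy, map_zero, add_zero]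
          have := congrArg (fun g : Module.End ℂ V => g x) hAA'.eq
          simp only [Module.End.mul_apply] at this
          rw [this, hAx, map_zero]
    obtain ⟨A, c, -, -, hA, hc, hAf⟩ := hmot f (hdecomp ▸ Submodule.mem_top)
    have h1 : (c : ℂ) • f ∈ pSpan L p := by
      have := hA.2
      rw [hAf, zero_sub] at this
      simpa using (pSpan L p).neg_mem this
    obtain ⟨s, hs⟩ := pSpan_functional L p ψ hψ h1
    rw [map_smul, hψf, smul_eq_mul] at hs
    have h2 : c * (m₀ : Rbar) = (p : Rbar) * s := by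
      apply Subtype.ext
      push_cast
      exact hs
    have h3 : c * (m₀ : Rbar) ∈ 𝔪 := h2 ▸ 𝔪.mul_mem_right s hp𝔪
    rcases h𝔪.mem_or_mem h3 with h | h
    · exact hc h
    · exact hm₀ h
  obtain ⟨χ, hχ, hr⟩ := key
  obtain ⟨v, hv0, hv⟩ := hcommon χ hχ
  choose lam hlam1 hlam2 using hr
  exact ⟨v, lam, hv0, fun i => by rw [hlam1 i]; exact hv i, hlam2⟩

end DS

end Fermat.Agent.S49
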