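import Mathlib
import Fermat.Prelude.Def_CuspForm_IntegralLattice
import Fermat.Prelude.Def_FormalHecke_Eigensystem
import Fermat.Prelude.Def_ModularForm_EisensteinChiNegThree

set_option autoImplicit false

namespace Fermat.Agent.S49

open EisensteinWeightOne

section FormalMul

variable {R : Type*} [CommRing R]

/-- the formal Hecke recursion implies multiplicativity on coprime arguments. -/
theorem formal_mul_of_coprime (c e : ℕ → R) (h1 : c 1 = 1)
    (hrec : ∀ ℓ : ℕ, ℓ.Prime → ∀ n : ℕ,
      c (n * ℓ) + (if ℓ ∣ n then e ℓ * c (n / ℓ) else 0) = c ℓ * c n) :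
    ∀ m n : ℕ, m.Coprime n → c (m * n) = c m * c n := by
  intro m
  induction m using Nat.strong_induction_on with
  | _ m ih =>
    intro n hmn
    rcases Nat.lt_or_ge m 2 with hm | hm
    · interval_cases m
      · have : n = 1 := by simpa using hmn
        subst this
        simp [h1]
      · simp [h1]
    · -- m ≥ 2
      set ℓ := m.minFac with hℓ
      have hℓp : ℓ.Prime := Nat.minFac_prime (by omega)
      have hℓm : ℓ ∣ m := Nat.minFac_dvd m
      obtain ⟨m', hm'⟩ := hℓm
      have hm'pos : 0 < m' := Nat.pos_of_ne_zero (by rintro rfl; simp at hm'; omega)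
      have hm'lt : m' < m := by
        have := hℓp.two_le
        nlinarith
      have hcop' : m'.Coprime n := Nat.Coprime.coprime_dvd_left ⟨ℓ, by rw [hm', mul_comm]⟩ hmn
      have hℓn : ¬ ℓ ∣ n := by
        intro h
        have : ℓ ∣ Nat.gcd m n := Nat.dvd_gcd ⟨m', hm'⟩ h
        rw [hmn] at this
        exact hℓp.one_lt.ne' (Nat.dvd_one.mp this)
      have e1 : m * n = (m' * n) * ℓ := by rw [hm']; ring
      have e2 : m = m' * ℓ := by rw [hm']; ring
      have r1 := hrec ℓ hℓp (m' * n)
      have r2 := hrec ℓ hℓp m'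
      have ih1 := ih m' hm'lt n hcop'
      by_cases hd : ℓ ∣ m'
      · obtain ⟨m'', hm''⟩ := hd
        have hm''lt : m'' < m := by
          have := hℓp.two_le
          have hm''pos : 0 < m'' := Nat.pos_of_ne_zero (by rintro rfl; simp at hm''; omega)
          nlinarith
        have hcop'' : m''.Coprime n :=
          Nat.Coprime.coprime_dvd_left ⟨ℓ, by rw [hm'', mul_comm]⟩ hcop'
        have ih2 := ih m'' hm''lt n hcop''
        have hd1 : ℓ ∣ m' * n := Dvd.dvd.mul_right ⟨m'', hm''⟩ n
        have hd2 : ℓ ∣ m' := ⟨m'', hm''⟩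
        have q1 : m' * n / ℓ = m'' * n := by
          rw [hm'', mul_assoc]
          exact Nat.mul_div_cancel_left _ hℓp.pos
        have q2 : m' / ℓ = m'' := by
          rw [hm'']
          exact Nat.mul_div_cancel_left _ hℓp.pos
        rw [if_pos hd1, q1, ih1, ih2] at r1
        rw [if_pos hd2, q2] at r2
        rw [e1]
        have : c (m' * n * ℓ) = c ℓ * (c m' * c n) - e ℓ * (c m'' * c n) := by
          rw [← r1]; ring
        rw [this]
        have : c m = c ℓ * c m' - e ℓ * c m'' := by
          rw [e2, ← r2]; ring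
        rw [this]
        ring
      · have hd1 : ¬ ℓ ∣ m' * n := by
          intro h
          rcases (Nat.Prime.dvd_mul hℓp).mp h with h | h
          · exact hd h
          · exact hℓn h
        rw [if_neg hd1, add_zero, ih1] at r1
        rw [if_neg hd, add_zero] at r2
        rw [e1, r1]
        have : c m = c ℓ * c m' := by rw [e2, r2]
        rw [this]
        ring

end FormalMul

section Congruences

theorem three_dvd_sub_chiNegThree (ℓ : ℕ) : (3 : ℤ) ∣ (ℓ : ℤ) - chiNegThree ℓ := by
  unfold chiNegThree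
  split_ifs <;> omega

theorem e1Chi3In_int_eq :
    e1Chi3In ℤ = 1 + PowerSeries.C (3 : ℤ) *
      PowerSeries.mk (fun n => if n = 0 then (0 : ℤ) else 2 * sigmaChi n) := by
  ext n
  unfold e1Chi3In e1Chi3
  simp only [PowerSeries.coeff_map, PowerSeries.coeff_mk, map_add, PowerSeries.coeff_one,
    PowerSeries.coeff_C_mul, Int.coe_castRingHom, Int.cast_id]
  split_ifs <;> ring

theorem bridgeProduct_coeff (a : ℕ → ℤ) (n : ℕ) :
    (3 : ℤ) ∣ (PowerSeries.coeff n) (bridgeProduct a) - a n := by
  unfold bridgeProduct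
  rw [e1Chi3In_int_eq, mul_add, mul_one, map_add, PowerSeries.coeff_mk, add_sub_cancel_left,
    ← mul_assoc, mul_comm (PowerSeries.mk a), mul_assoc, PowerSeries.coeff_C_mul]
  exact dvd_mul_right _ _

/-- the lattice-realising form is an eigenvector modulo `3`. -/
theorem eigen_congruence {N : ℕ} {a af : ℕ → ℤ}
    (heig : FormalHecke.IsEigensystem
      (fun ℓ => if ℓ ∣ N then 0 else ((chiNegThree ℓ : ℤ) : ℤ)) a)
    (haf : ∀ m, (3 : ℤ) ∣ af m - a m) (ℓ : ℕ) (hℓ : ℓ.Prime) (n : ℕ) :
    (3 : ℤ) ∣ af (n * ℓ) + (if ℓ ∣ N then (0 : ℤ) else 1) *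
      (if ℓ ∣ n then (ℓ : ℤ) * af (n / ℓ) else 0) - a ℓ * af n := by
  have h3 : ∀ x : ℤ, (3 : ℤ) ∣ x ↔ ((x : ZMod 3) = 0) := fun x =>
    (ZMod.intCast_zmod_eq_zero_iff_dvd x 3).symm
  have haf' : ∀ m, ((af m : ℤ) : ZMod 3) = ((a m : ℤ) : ZMod 3) := by
    intro m
    have := (h3 _).mp (haf m)
    push_cast at this
    linear_combination this
  have hchi : ((chiNegThree ℓ : ℤ) : ZMod 3) = ((ℓ : ℤ) : ZMod 3) := by
    have := (h3 _).mp (three_dvd_sub_chiNegThree ℓ)
    push_cast at this ⊢
    linear_combination -this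
  have he := heig.2 ℓ hℓ n
  simp only at he
  rw [h3]
  by_cases hN : ℓ ∣ N <;> by_cases hn : ℓ ∣ n
  · rw [if_pos hN, if_pos hn] at he
    rw [if_pos hN, if_pos hn]
    have he' := congrArg (Int.cast : ℤ → ZMod 3) he
    push_cast at he' ⊢
    simp only [haf', mul_comm n ℓ]
    linear_combination he'
  · rw [if_pos hN, if_neg hn] at he
    rw [if_pos hN, if_neg hn]
    have he' := congrArg (Int.cast : ℤ → ZMod 3) he
    push_cast at he' ⊢
    simp only [haf', mul_comm n ℓ]
    linear_combination he'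
  · rw [if_neg hN, if_pos hn] at he
    rw [if_neg hN, if_pos hn]
    have he' := congrArg (Int.cast : ℤ → ZMod 3) he
    push_cast at he' hchi ⊢
    simp only [haf', mul_comm n ℓ]
    linear_combination he' - ((a (n / ℓ) : ℤ) : ZMod 3) * hchi
  · rw [if_neg hN, if_neg hn] at he
    rw [if_neg hN, if_neg hn]
    have he' := congrArg (Int.cast : ℤ → ZMod 3) he
    push_cast at he' ⊢
    simp only [haf', mul_comm n ℓ]
    linear_combination he'

end Congruences

end Fermat.Agent.S49
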