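import Fermat.Statements.S49
import Fermat.Prelude.Def_FLTPrelim_ModularRep
import Fermat.Agent.S49.DeligneSerre
import Fermat.Agent.S49.Forms
import Fermat.Agent.S49.Formal

set_option autoImplicit false

namespace Fermat.Agent.S49

open CuspForm EisensteinWeightOne CongruenceSubgroup ModularFormClass UpperHalfPlane

noncomputable section

variable {N : ℕ}

/-- a common eigenvector of the Hecke family is, after normalisation, a normalised eigenform. -/
theorem exists_normalizedEigenform_of_eigenvector [NeZero N]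
    (v : CuspForm (Gamma0 N) 2) (hv0 : v ≠ 0) (lam : Nat.Primes → ℂ)
    (hv : ∀ ℓ, heckeFam N ℓ v = lam ℓ • v) :
    ∃ g : CuspForm (Gamma0 N) 2, g.IsNormalizedEigenform ∧
      ∀ ℓ : Nat.Primes, qCoeff ⇑g ℓ = lam ℓ := by
  classical
  set b : ℕ → ℂ := fun n => qCoeff ⇑v n with hb
  have hrel : ∀ (ℓ : Nat.Primes) (n : ℕ), b (n * ℓ) +
      (lvlEps N ℓ : ℂ) * (if (ℓ : ℕ) ∣ n then ((ℓ : ℕ) : ℂ) * b (n / ℓ) else 0) = lam ℓ * b n := by
    intro ℓ n
    have h1 : qCoeff ⇑(heckeFam N ℓ v) n = qCoeff ⇑(lam ℓ • v) n := by rw [hv ℓ]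
    rw [qCoeff_heckeFam, qCoeff_smul'] at h1
    exact h1
  have hb0 : b 0 = 0 := qCoeff_zero_cusp v
  have hb1 : b 1 ≠ 0 := by
    intro hb1
    apply hv0
    apply eq_zero_of_qCoeff_eq_zero
    intro n
    induction n using Nat.strong_induction_on with
    | _ n ih =>
      rcases Nat.lt_or_ge n 2 with hn | hn
      · interval_cases n
        · exact hb0
        · exact hb1
      · have hℓp : n.minFac.Prime := Nat.minFac_prime (by omega)
        obtain ⟨n', hn'⟩ := Nat.minFac_dvd n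
        have hn'pos : 0 < n' := Nat.pos_of_ne_zero (by rintro rfl; simp at hn'; omega)
        have hn'lt : n' < n := by
          have := hℓp.two_le
          nlinarith
        have h1 : b (n' * n.minFac) + (lvlEps N n.minFac : ℂ) *
            (if n.minFac ∣ n' then (n.minFac : ℂ) * b (n' / n.minFac) else 0) =
            lam ⟨n.minFac, hℓp⟩ * b n' := hrel ⟨n.minFac, hℓp⟩ n'
        have e1 : n = n' * n.minFac := by rw [mul_comm]; exact hn'
        have h2 : b n' = 0 := ih n' hn'lt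
        have h3 : b (n' / n.minFac) = 0 :=
          ih _ (lt_of_le_of_lt (Nat.div_le_self _ _) hn'lt)
        rw [← e1, h2, h3] at h1
        simpa using h1
  refine ⟨(b 1)⁻¹ • v, ?_, ?_⟩
  · set c : ℕ → ℂ := fun n => qCoeff ⇑((b 1)⁻¹ • v) n with hc
    have hcb : ∀ n, c n = (b 1)⁻¹ * b n := fun n => qCoeff_smul' _ v n
    have hc1 : c 1 = 1 := by rw [hcb]; exact inv_mul_cancel₀ hb1
    set e : ℕ → ℂ := fun ℓ => (lvlEps N ℓ : ℂ) * (ℓ : ℂ) with he
    have hcrel0 : ∀ (ℓ : Nat.Primes) (n : ℕ), c (n * ℓ) +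
        (if (ℓ : ℕ) ∣ n then e ℓ * c (n / ℓ) else 0) = lam ℓ * c n := by
      intro ℓ n
      have := hrel ℓ n
      rw [hcb, hcb, hcb]
      by_cases hd : (ℓ : ℕ) ∣ n
      · rw [if_pos hd] at this ⊢
        rw [he]
        simp only
        linear_combination (b 1)⁻¹ * this
      · rw [if_neg hd] at this ⊢
        linear_combination (b 1)⁻¹ * this
    have hcℓ : ∀ ℓ : Nat.Primes, c ℓ = lam ℓ := by
      intro ℓ
      have := hcrel0 ℓ 1
      rw [if_neg (by simpa using ℓ.2.one_lt.ne' : ¬ (ℓ : ℕ) ∣ 1), one_mul, add_zero, hc1,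
        mul_one] at this
      exact this
    have hcrel : ∀ ℓ : ℕ, ℓ.Prime → ∀ n : ℕ,
        c (n * ℓ) + (if ℓ ∣ n then e ℓ * c (n / ℓ) else 0) = c ℓ * c n := by
      intro ℓ hℓ n
      have := hcrel0 ⟨ℓ, hℓ⟩ n
      rw [← hcℓ ⟨ℓ, hℓ⟩] at this
      exact this
    refine ⟨hc1, formal_mul_of_coprime c e hc1 hcrel, ?_, ?_⟩
    · intro p r hp hpN
      have := hcrel p hp (p ^ (r + 1))
      rw [if_pos (dvd_pow_self p (Nat.succ_ne_zero r))] at this
      have e1 : p ^ (r + 1) / p = p ^ r := by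
        rw [pow_succ]; exact Nat.mul_div_cancel _ hp.pos
      have e2 : p ^ (r + 1) * p = p ^ (r + 2) := by ring
      have e3 : e p = (p : ℂ) := by
        simp [he, lvlEps, hpN]
      rw [e1, e2, e3] at this
      show c (p ^ (r + 2)) = c p * c (p ^ (r + 1)) - (p : ℂ) * c (p ^ r)
      linear_combination this
    · intro p r hp hpN
      have := hcrel p hp (p ^ (r + 1))
      rw [if_pos (dvd_pow_self p (Nat.succ_ne_zero r))] at this
      have e2 : p ^ (r + 1) * p = p ^ (r + 2) := by ring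
      have e3 : e p = 0 := by
        simp [he, lvlEps, hpN]
      rw [e2, e3, zero_mul, add_zero] at this
      exact this
  · intro ℓ
    have h1 := hrel ℓ 1
    rw [if_neg (by simpa using ℓ.2.one_lt.ne' : ¬ (ℓ : ℕ) ∣ 1), one_mul, mul_zero, add_zero]
      at h1
    rw [qCoeff_smul']
    show (b 1)⁻¹ * b ℓ = lam ℓ
    rw [h1]
    field_simp

end

end Fermat.Agent.S49
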